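import Fermat.Agent.S31.Bridge
import Fermat.Prelude.Def_GaloisRep_Flat

/-!
# S32 / P5 : the small algebraic leaves of the assembly
-/

set_option autoImplicit false

namespace Fermat.Agent.S32.P5

open IsLocalRing Fermat.Agent.S31

/-- (a) the residue field of `T` is finite. -/
theorem finite_residueField {𝒪 T : Type*} [CommRing 𝒪] [IsLocalRing 𝒪] [CommRing T] [IsLocalRing T]
    [Algebra 𝒪 T] [IsLocalHom (algebraMap 𝒪 T)] [Finite (ResidueField 𝒪)]
    (h : Function.Surjective (residue T ∘ algebraMap 𝒪 T)) : Finite (ResidueField T) := by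
  have h2 : Function.Surjective (ResidueField.map (algebraMap 𝒪 T)) := by
    intro y
    obtain ⟨x, hx⟩ := h y
    exact ⟨residue 𝒪 x, by rw [ResidueField.map_residue]; exact hx⟩
  exact Finite.of_surjective _ h2

/-- (b) an ideal of finite index contains a power of the maximal ideal. -/
theorem exists_pow_le {T : Type*} [CommRing T] [IsLocalRing T] (I : Ideal T) [Finite (T ⧸ I)] :
    ∃ m : ℕ, maximalIdeal T ^ m ≤ I := by
  by_cases hI : I = ⊤
  · exact ⟨0, by rw [hI]; exact le_top⟩
  have : Nontrivial (T ⧸ I) := Ideal.Quotient.nontrivial_iff.mpr hI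
  have hloc : IsLocalRing (T ⧸ I) :=
    IsLocalRing.of_surjective' (Ideal.Quotient.mk I) Ideal.Quotient.mk_surjective
  have hart : IsArtinianRing (T ⧸ I) := inferInstance
  obtain ⟨m, hm⟩ := IsArtinianRing.isNilpotent_jacobson_bot (R := T ⧸ I)
  refine ⟨m, fun x hx => ?_⟩
  rw [← Ideal.Quotient.eq_zero_iff_mem]
  have h1 : Ideal.map (Ideal.Quotient.mk I) (maximalIdeal T) ≤ (⊥ : Ideal (T ⧸ I)).jacobson := by
    rw [IsLocalRing.jacobson_eq_maximalIdeal _ bot_ne_top, Ideal.map_le_iff_le_comap]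
    intro y hy
    rw [Ideal.mem_comap, IsLocalRing.mem_maximalIdeal, mem_nonunits_iff]
    intro hu
    have : IsLocalHom (Ideal.Quotient.mk I) :=
      IsLocalHom.of_surjective _ Ideal.Quotient.mk_surjective
    exact hy ((isUnit_map_iff (Ideal.Quotient.mk I) y).mp hu)
  have h2 : Ideal.Quotient.mk I x ∈ (⊥ : Ideal (T ⧸ I)).jacobson ^ m := by
    refine Ideal.pow_right_mono h1 m ?_
    rw [← Ideal.map_pow]
    exact Ideal.mem_map_of_mem _ hx
  rw [hm] at h2
  exact h2

/-- (c) `V / I V` is finite. -/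
theorem finite_quot {T : Type} [CommRing T] [IsLocalRing T] (ρ : GaloisRepAdic T) (I : Ideal T)
    [Finite (T ⧸ I)] : Finite (ρ.V ⧸ (I • (⊤ : Submodule T ρ.V))) := by
  have : Module.Finite (T ⧸ I) (ρ.V ⧸ (I • (⊤ : Submodule T ρ.V))) :=
    Module.Finite.of_restrictScalars_finite T (T ⧸ I) _
  exact Module.finite_of_finite (T ⧸ I)

/-- an endomorphism whose matrix has entries in `J` maps into `J V`. -/
theorem mem_smul_top_of_toMatrix {T : Type*} [CommRing T] {V : Type*} [AddCommGroup V] [Module T V]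
    {ι : Type*} [Fintype ι] [DecidableEq ι] (b : Module.Basis ι T V) (J : Ideal T)
    (E : Module.End T V) (h : ∀ i j, LinearMap.toMatrix b b E i j ∈ J) (v : V) :
    E v ∈ J • (⊤ : Submodule T V) := by
  rw [← b.sum_repr (E v)]
  refine Submodule.sum_mem _ fun i _ => Submodule.smul_mem_smul ?_ Submodule.mem_top
  have h1 := congrFun (LinearMap.toMatrix_mulVec_repr b b E v) i
  rw [← h1]
  simp only [Matrix.mulVec, dotProduct]
  exact Ideal.sum_mem _ fun j _ => J.mul_mem_right _ (h i j)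

open TensorProduct in
/-- (d) the matrix form of `ρ`, with the link between `ℤ[G]`-combinations. -/
theorem exists_matrix_form' {T : Type} [CommRing T] [IsLocalRing T] (ρ : GaloisRepAdic T)
    (hirr : ρ.residual.IsAbsolutelyIrreducible) :
    ∃ M : GQ →* Matrix (Fin 2) (Fin 2) T,
      (∀ σ, M σ = 1 → ρ.ρ σ = 1) ∧
      (∀ σ, (M σ).charpoly = LinearMap.charpoly (ρ.ρ σ)) ∧
      (∀ n : ℕ, ∃ L : IntermediateField ℚ Qb, FiniteDimensional ℚ L ∧
        ∀ σ : GQ, (∀ x ∈ L, σ x = x) → ∀ i j, (M σ - 1) i j ∈ maximalIdeal T ^ n) ∧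
      (∀ W : Submodule (AlgebraicClosure (ResidueField T))
          (Fin 2 → AlgebraicClosure (ResidueField T)),
        (∀ g, ∀ v ∈ W, ((M g).map ((algebraMap (ResidueField T)
          (AlgebraicClosure (ResidueField T))).comp (residue T))).mulVec v ∈ W) →
            W = ⊥ ∨ W = ⊤) ∧
      (∀ (a : GQ →₀ ℤ) (J : Ideal T), (∀ i j, (a.sum fun g c => c • M g) i j ∈ J) →
        ∀ v : ρ.V, (a.sum fun g c => c • ρ.ρ g v) ∈ J • (⊤ : Submodule T ρ.V)) := by
  classical
  let b : Module.Basis (Fin 2) T ρ.V := Module.finBasisOfFinrankEq T ρ.V ρ.finrank_eq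
  let M : GQ →* Matrix (Fin 2) (Fin 2) T :=
    ((LinearMap.toMatrixAlgEquiv b : Module.End T ρ.V ≃ₐ[T] Matrix (Fin 2) (Fin 2) T) :
      Module.End T ρ.V →* Matrix (Fin 2) (Fin 2) T).comp ρ.ρ
  have hM : ∀ σ, M σ = LinearMap.toMatrix b b (ρ.ρ σ) := fun σ => rfl
  refine ⟨M, ?_, ?_, ?_, ?_, ?_⟩
  · intro σ h
    have h1 : LinearMap.toMatrixAlgEquiv b (ρ.ρ σ) = LinearMap.toMatrixAlgEquiv b 1 := by
      rw [map_one]; exact h
    exact (LinearMap.toMatrixAlgEquiv b).injective h1
  · intro σ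
    rw [hM]
    exact LinearMap.charpoly_toMatrix (ρ.ρ σ) b
  · intro n
    obtain ⟨L, hL, h⟩ := ρ.isAdicContinuous n
    refine ⟨L, hL, fun σ hσ i j => ?_⟩
    have h1 : (M σ - 1) i j = b.repr (ρ.ρ σ (b j) - b j) i := by
      rw [Matrix.sub_apply, hM, LinearMap.toMatrix_apply, map_sub, Finsupp.sub_apply,
        Module.Basis.repr_self, Matrix.one_apply, Finsupp.single_apply]
      simp only [eq_comm]
    rw [h1]
    exact repr_mem_of_mem_smul_top b _ (h σ hσ (b j)) i
  · intro W hW
    let k := ResidueField T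
    let K := AlgebraicClosure k
    let b1 : Module.Basis (Fin 2) k (k ⊗[T] ρ.V) := Algebra.TensorProduct.basis k b
    let b2 : Module.Basis (Fin 2) K (K ⊗[k] (k ⊗[T] ρ.V)) := Algebra.TensorProduct.basis K b1
    have hmat : ∀ g, LinearMap.toMatrix b2 b2 (((ρ.ρ g).baseChange k).baseChange K) =
        (M g).map ((algebraMap k K).comp (residue T)) := by
      intro g
      rw [LinearMap.toMatrix_baseChange, LinearMap.toMatrix_baseChange, hM, Matrix.map_map]
      rfl
    let W' : Submodule K (K ⊗[k] (k ⊗[T] ρ.V)) := W.comap b2.equivFun.toLinearMap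
    have hW' : ∀ σ : GQ, ∀ x ∈ W', (((ρ.ρ σ).baseChange k).baseChange K) x ∈ W' := by
      intro σ x hx
      have h1 := hW σ (b2.equivFun x) hx
      rw [← hmat] at h1
      have h2 := LinearMap.toMatrix_mulVec_repr b2 b2 (((ρ.ρ σ).baseChange k).baseChange K) x
      change b2.equivFun _ ∈ W
      have h3 : (b2.equivFun ((((ρ.ρ σ).baseChange k).baseChange K) x) : Fin 2 → K) =
          (LinearMap.toMatrix b2 b2 (((ρ.ρ σ).baseChange k).baseChange K)).mulVec
            (b2.equivFun x) := by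
        funext i
        have := congrFun h2 i
        exact this.symm
      rw [h3]
      exact h1
    have hres : W' = ⊥ ∨ W' = ⊤ := hirr W' hW'
    rcases hres with h | h
    · left
      rw [eq_bot_iff]
      intro v hv
      have : b2.equivFun.symm v ∈ W' := by
        change b2.equivFun (b2.equivFun.symm v) ∈ W
        rwa [LinearEquiv.apply_symm_apply]
      rw [h, Submodule.mem_bot] at this
      have h2 := congrArg b2.equivFun this
      rw [LinearEquiv.apply_symm_apply, map_zero] at h2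
      exact (Submodule.mem_bot K).mpr h2
    · right
      rw [eq_top_iff]
      intro v _
      have : b2.equivFun.symm v ∈ W' := by rw [h]; exact Submodule.mem_top
      change b2.equivFun (b2.equivFun.symm v) ∈ W at this
      rwa [LinearEquiv.apply_symm_apply] at this
  · intro a J h v
    have h1 : (a.sum fun g c => c • ρ.ρ g v) = (a.sum fun g c => c • ρ.ρ g) v := by
      simp only [Finsupp.sum, LinearMap.sum_apply, LinearMap.smul_apply]
    rw [h1]
    refine mem_smul_top_of_toMatrix b J _ (fun i j => ?_) v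
    have h2 : LinearMap.toMatrix b b (a.sum fun g c => c • ρ.ρ g) = a.sum fun g c => c • M g := by
      simp only [Finsupp.sum, map_sum, map_zsmul, hM]
    rw [h2]
    exact h i j

section level

variable {T : Type} [CommRing T] [IsLocalRing T] (ρ : GaloisRepAdic T) (I : Ideal T)

theorem levelAction_mk (σ : GQ) (v : ρ.V) :
    ρ.levelAction I σ (Submodule.Quotient.mk v) = Submodule.Quotient.mk (ρ.ρ σ v) := rfl

theorem levelAction_one (x : ρ.V ⧸ (I • (⊤ : Submodule T ρ.V))) : ρ.levelAction I 1 x = x := by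
  obtain ⟨v, rfl⟩ := Submodule.Quotient.mk_surjective _ x
  rw [levelAction_mk, map_one]
  rfl

theorem levelAction_mul (σ τ : GQ) (x : ρ.V ⧸ (I • (⊤ : Submodule T ρ.V))) :
    ρ.levelAction I (σ * τ) x = ρ.levelAction I σ (ρ.levelAction I τ x) := by
  obtain ⟨v, rfl⟩ := Submodule.Quotient.mk_surjective _ x
  rw [levelAction_mk, levelAction_mk, levelAction_mk, map_mul]
  rfl

theorem levelAction_add (σ : GQ) (x y : ρ.V ⧸ (I • (⊤ : Submodule T ρ.V))) :
    ρ.levelAction I σ (x + y) = ρ.levelAction I σ x + ρ.levelAction I σ y := map_add _ _ _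

/-- an element of `ℤ[G]` which maps `V` into `I V` kills `V / I V`. -/
theorem sum_levelAction_eq_zero (a : GQ →₀ ℤ)
    (h : ∀ v : ρ.V, (a.sum fun g c => c • ρ.ρ g v) ∈ I • (⊤ : Submodule T ρ.V))
    (x : ρ.V ⧸ (I • (⊤ : Submodule T ρ.V))) :
    (a.sum fun g c => c • ρ.levelAction I g x) = 0 := by
  obtain ⟨v, rfl⟩ := Submodule.Quotient.mk_surjective _ x
  have h1 : (a.sum fun g c => c • ρ.levelAction I g (Submodule.Quotient.mk v)) =
      Submodule.Quotient.mk (p := I • (⊤ : Submodule T ρ.V)) (a.sum fun g c => c • ρ.ρ g v) := by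
    simp only [Finsupp.sum, levelAction_mk]
    rw [← Submodule.mkQ_apply, map_sum]
    refine Finset.sum_congr rfl fun g _ => ?_
    rw [map_zsmul]
    rfl
  rw [h1, Submodule.Quotient.mk_eq_zero]
  exact h v

/-- the action of `G_ℚ` on `V / I V` as a monoid homomorphism. -/
noncomputable def levelHom : GQ →* AddMonoid.End (ρ.V ⧸ (I • (⊤ : Submodule T ρ.V))) where
  toFun σ := (ρ.levelAction I σ).toAddMonoidHom
  map_one' := AddMonoidHom.ext fun x => levelAction_one ρ I x
  map_mul' σ τ := AddMonoidHom.ext fun x => levelAction_mul ρ I σ τ x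

theorem levelHom_apply (σ : GQ) (x : ρ.V ⧸ (I • (⊤ : Submodule T ρ.V))) :
    levelHom ρ I σ x = ρ.levelAction I σ x := rfl

/-- (c) of the skeleton: entries in `J ≤ I` imply that `a` kills `V / I V`. -/
theorem sum_levelHom_eq_zero {J : Ideal T} (hJ : J ≤ I) (a : GQ →₀ ℤ)
    (h : ∀ v : ρ.V, (a.sum fun g c => c • ρ.ρ g v) ∈ J • (⊤ : Submodule T ρ.V))
    (x : ρ.V ⧸ (I • (⊤ : Submodule T ρ.V))) :
    (a.sum fun g c => c • levelHom ρ I g x) = 0 :=
  sum_levelAction_eq_zero ρ I a (fun v => Submodule.smul_mono_left hJ (h v)) x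

end level

end Fermat.Agent.S32.P5
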